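/-
T16 (S16) package U2b-7, file 2: an INTEGRAL Sturm bound for level one.

`coeff_mem_of_sturm`: let `J` be an additive subgroup of `ℂ` and `F` a level-one modular form of
weight `k`.  If the `q`-expansion coefficients `a_n(F)` lie in `J` for all `n ≤ k/12`, then they lie
in `J` for all `n`.  (Triangular integral basis `E₄^a E₆^b Δ^j`, implemented as the usual
`Δ`-division induction.)
-/
import Mathlib
import Fermat.Agent.S28.JFunction
import Fermat.Agent.S28.MeroCusp
import Fermat.Agent.S23.Unbundled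

set_option autoImplicit false

noncomputable section

namespace Fermat.Agent.S16.U2Seven

open UpperHalfPlane ModularForm EisensteinSeries PowerSeries ModularCurve
open Fermat.Agent.S28 Fermat.Agent.S23
open scoped MatrixGroups ModularForm Manifold ArithmeticFunction.sigma

local notation "Δ" => ModularForm.discriminant

/-! ### Integer `q`-expansions of `E₄`, `E₆`, `Δ` -/

/-- The `q`-expansion of `E₆` with integer coefficients. -/
def eis6Z : PowerSeries ℤ :=
  PowerSeries.mk fun n => if n = 0 then 1 else -504 * ∑ d ∈ n.divisors, (d : ℤ) ^ 5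

theorem constantCoeff_eis6Z : PowerSeries.constantCoeff eis6Z = 1 := by
  rw [← PowerSeries.coeff_zero_eq_constantCoeff]
  simp [eis6Z]

theorem qExpansion_E6 : qExpansion 1 E₆ = toC eis6Z := by
  ext m
  rw [E_qExpansion_coeff (by norm_num : 3 ≤ 6) ⟨3, rfl⟩ m, coeff_toC]
  simp only [eis6Z, coeff_mk]
  rcases eq_or_ne m 0 with rfl | hm
  · simp
  · simp only [hm, if_false]
    rw [show bernoulli 6 = 1 / 42 by decide +kernel]
    simp [ArithmeticFunction.sigma_apply]
    norm_num

theorem nice_discriminant : Nice (Δ : ℍ → ℂ) :=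
  ModularFormClass.analyticAt_cuspFunction_zero CuspForm.discriminant one_pos
    one_mem_strictPeriods_SL

theorem qExpansion_discriminant : qExpansion 1 Δ = X * toC dedekindEtaUnit := by
  ext m
  symm
  refine MeroCusp.qExpansion_coeff_unique_fun (h := 1)
    (c := fun m => coeff m (X * toC dedekindEtaUnit)) one_pos nice_discriminant (fun τ => ?_) m
  have hq := norm_qParam_one_lt_one τ
  have h1 := (conv_X.mul conv_dedekindEtaUnit).hasSum hq
  rw [evalDisc_mul conv_X conv_dedekindEtaUnit hq] at h1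
  have hX : evalDisc (X : PowerSeries ℂ) (Function.Periodic.qParam 1 τ)
      = Function.Periodic.qParam 1 τ := by
    simp
  rw [hX, ← discriminant_eq_evalDisc] at h1
  simpa [smul_eq_mul] using h1

/-! ### Series with coefficients in an additive subgroup -/

/-- All coefficients of index `≤ N` lie in `J`. -/
def CoeffLE (J : AddSubgroup ℂ) (N : ℕ) (P : PowerSeries ℂ) : Prop :=
  ∀ n ≤ N, coeff n P ∈ J

theorem CoeffLE.mono {J : AddSubgroup ℂ} {N M : ℕ} {P : PowerSeries ℂ} (h : CoeffLE J N P)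
    (hMN : M ≤ N) : CoeffLE J M P := fun n hn => h n (hn.trans hMN)

theorem CoeffLE.intMul {J : AddSubgroup ℂ} {N : ℕ} {P : PowerSeries ℂ} (h : CoeffLE J N P)
    (Q : PowerSeries ℤ) : CoeffLE J N (toC Q * P) := by
  intro n hn
  rw [coeff_mul]
  refine J.sum_mem fun ij hij => ?_
  have hle : ij.2 ≤ N := by
    have h2 : ij.1 + ij.2 = n := Finset.HasAntidiagonal.mem_antidiagonal.mp hij
    omega
  rw [coeff_toC]
  have := J.zsmul_mem (h ij.2 hle) (coeff ij.1 Q)
  simpa [zsmul_eq_mul] using this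

theorem CoeffLE.sub {J : AddSubgroup ℂ} {N : ℕ} {P Q : PowerSeries ℂ} (hP : CoeffLE J N P)
    (hQ : CoeffLE J N Q) : CoeffLE J N (P - Q) := fun n hn => by
  rw [map_sub]; exact J.sub_mem (hP n hn) (hQ n hn)

theorem CoeffLE.add {J : AddSubgroup ℂ} {N : ℕ} {P Q : PowerSeries ℂ} (hP : CoeffLE J N P)
    (hQ : CoeffLE J N Q) : CoeffLE J N (P + Q) := fun n hn => by
  rw [map_add]; exact J.add_mem (hP n hn) (hQ n hn)

/-- `c • toC Q` has coefficients in `J` as soon as `c ∈ J`. -/
theorem coeffLE_smul_toC {J : AddSubgroup ℂ} {c : ℂ} (hc : c ∈ J) (Q : PowerSeries ℤ) (N : ℕ) :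
    CoeffLE J N (c • toC Q) := by
  intro n _
  rw [coeff_smul, coeff_toC, smul_eq_mul, mul_comm]
  have := J.zsmul_mem hc (coeff n Q)
  simpa [zsmul_eq_mul] using this

/-- If `X * D * P'` has its coefficients of index `≤ N + 1` in `J` (`D` the eta unit), then `P'`
has its coefficients of index `≤ N` in `J`. -/
theorem CoeffLE.of_X_mul_unit {J : AddSubgroup ℂ} {N : ℕ} {P P' : PowerSeries ℂ}
    (hP : CoeffLE J (N + 1) P) (hfac : P = X * toC dedekindEtaUnit * P') : CoeffLE J N P' := by
  have h1 : toC dedekindEtaUnitInv * P = X * P' := by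
    rw [hfac]
    have : toC dedekindEtaUnitInv * toC dedekindEtaUnit = 1 := by
      rw [← toC_mul, mul_comm, dedekindEtaUnit_mul_inv, toC_one]
    calc toC dedekindEtaUnitInv * (X * toC dedekindEtaUnit * P')
        = (toC dedekindEtaUnitInv * toC dedekindEtaUnit) * (X * P') := by ring
      _ = X * P' := by rw [this, one_mul]
  intro n hn
  have h2 := (hP.intMul dedekindEtaUnitInv) (n + 1) (by omega)
  rw [h1, coeff_succ_X_mul] at h2
  exact h2

/-! ### The integral Sturm bound -/

theorem isMF_E4 : IsMF 𝒮ℒ 4 (E₄ : ℍ → ℂ) := ⟨E₄, rfl⟩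
theorem isMF_E6 : IsMF 𝒮ℒ 6 (E₆ : ℍ → ℂ) := ⟨E₆, rfl⟩

/-- The monomial `E₄^a E₆^b`. -/
def eMon (a b : ℕ) : ℍ → ℂ := (E₄ : ℍ → ℂ) ^ a * (E₆ : ℍ → ℂ) ^ b

theorem isMF_eMon (a b : ℕ) {k : ℤ} (hk : (4 : ℤ) * a + 6 * b = k) : IsMF 𝒮ℒ k (eMon a b) :=
  (isMF_E4.pow_cast a rfl).mul_cast (isMF_E6.pow_cast b rfl) hk

theorem qExpansion_eMon (a b : ℕ) :
    qExpansion 1 (eMon a b) = toC (eisenstein4 ^ a * eis6Z ^ b) := by
  unfold eMon
  rw [qExp_mul (isMF_E4.nice_levelOne.pow a) (isMF_E6.nice_levelOne.pow b),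
    qExp_pow isMF_E4.nice_levelOne, qExp_pow isMF_E6.nice_levelOne, qExpansion_E4, qExpansion_E6,
    toC_mul, toC_pow, toC_pow]

theorem coeff_zero_qExpansion_eMon (a b : ℕ) : coeff 0 (qExpansion 1 (eMon a b)) = 1 := by
  rw [qExpansion_eMon, coeff_toC, PowerSeries.coeff_zero_eq_constantCoeff, map_mul, map_pow,
    map_pow, constantCoeff_eisenstein4, constantCoeff_eis6Z]
  simp

theorem exists_monomial_weight {k : ℕ} (hk : Even k) (hk2 : k ≠ 2) :
    ∃ a b : ℕ, 4 * a + 6 * b = k := by
  obtain ⟨m, rfl⟩ := hk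
  rcases Nat.even_or_odd' m with ⟨j, rfl | rfl⟩
  · exact ⟨j, 0, by omega⟩
  · rcases j with _ | j
    · omega
    · exact ⟨j, 1, by omega⟩

/-- **Integral Sturm bound.**  If the first `k/12 + 1` coefficients of a level-one form of weight
`k` lie in the additive subgroup `J`, then all of them do. -/
theorem coeff_mem_of_sturm (J : AddSubgroup ℂ) :
    ∀ (k : ℕ) {F : ℍ → ℂ}, IsMF 𝒮ℒ (k : ℤ) F → CoeffLE J (k / 12) (qExpansion 1 F) →
      ∀ n, coeff n (qExpansion 1 F) ∈ J := by
  intro k
  induction k using Nat.strong_induction_on with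
  | _ k ih =>
  intro F hF hle n
  rcases Nat.even_or_odd k with hev | hodd
  swap
  · -- odd weight: `F = 0`
    obtain ⟨F', rfl⟩ := hF
    have : F' = 0 := ModularForm.levelOne_odd_weight_eq_zero (by exact_mod_cast hodd) F'
    rw [this]
    simp [qExpansion_zero]
  by_cases hk2 : k = 2
  · subst hk2
    obtain ⟨F', rfl⟩ := hF
    have : F' = 0 :=
      rank_zero_iff_forall_zero.mp ModularForm.levelOne_weight_two_rank_zero F'
    rw [this]
    simp [qExpansion_zero]
  obtain ⟨a, b, hab⟩ := exists_monomial_weight hev hk2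
  have he : IsMF 𝒮ℒ (k : ℤ) (eMon a b) := isMF_eMon a b (by exact_mod_cast hab)
  set c : ℂ := coeff 0 (qExpansion 1 F) with hc
  have hcJ : c ∈ J := hle 0 (Nat.zero_le _)
  -- `G := F - c • e`
  have hG : IsMF 𝒮ℒ (k : ℤ) (F - c • eMon a b) := hF.sub (he.smul c)
  have hqG : qExpansion 1 (F - c • eMon a b)
      = qExpansion 1 F - c • toC (eisenstein4 ^ a * eis6Z ^ b) := by
    rw [qExp_sub hF.nice_levelOne (he.nice_levelOne.smul c), qExp_smul c he.nice_levelOne,
      qExpansion_eMon]
  obtain ⟨G', hG'⟩ := hG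
  have hG0 : (qExpansion 1 G').coeff 0 = 0 := by
    rw [hG', hqG, map_sub, coeff_smul, ← qExpansion_eMon, coeff_zero_qExpansion_eMon, ← hc]
    simp
  have hfac := ModularForm.qExpansion_eq_qExpansion_discriminant_mul G' hG0
  rw [qExpansion_discriminant] at hfac
  set G'' : ModularForm 𝒮ℒ ((k : ℤ) - 12) :=
    CuspForm.discriminantEquiv (toCuspForm G' hG0) with hG''
  -- it suffices to show that all coefficients of `G''` lie in `J`
  have key : (∀ m, coeff m (qExpansion 1 G'') ∈ J) → coeff n (qExpansion 1 F) ∈ J := by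
    intro hall
    have h1 : ∀ m, coeff m (qExpansion 1 G') ∈ J := by
      intro m
      have hall' : CoeffLE J m (qExpansion 1 G'') := fun i _ => hall i
      have := (hall'.intMul (X * dedekindEtaUnit)) m le_rfl
      rw [hfac]
      simpa [toC_mul] using this
    have h2 : qExpansion 1 F = qExpansion 1 G' + c • toC (eisenstein4 ^ a * eis6Z ^ b) := by
      rw [hG', hqG]; ring
    rw [h2, map_add]
    exact J.add_mem (h1 n) (coeffLE_smul_toC hcJ _ n n le_rfl)
  apply key
  rcases lt_or_ge k 12 with hlt | hge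
  · -- negative weight: `G'' = 0`
    have : G'' = 0 :=
      rank_zero_iff_forall_zero.mp (ModularForm.levelOne_neg_weight_rank_zero (by omega)) G''
    intro m
    rw [this]
    simp [qExpansion_zero]
  · -- induction hypothesis at weight `k - 12`
    have hG''mf : IsMF 𝒮ℒ ((k - 12 : ℕ) : ℤ) (G'' : ℍ → ℂ) :=
      (ModularForm.isMF G'').cast (by omega)
    refine ih (k - 12) (by omega) hG''mf ?_
    have hdiv : (k - 12) / 12 + 1 = k / 12 := by omega
    have hGle : CoeffLE J ((k - 12) / 12 + 1) (qExpansion 1 G') := by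
      rw [hdiv, hG', hqG]
      exact hle.sub (coeffLE_smul_toC hcJ _ _)
    exact hGle.of_X_mul_unit hfac

end Fermat.Agent.S16.U2Seven
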