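/-
T16 (S16) package U2b-7, file 5: the coefficient ring.

`oddRing : Subring ℂ` is the ring of complex numbers `z` such that `m * z` is an algebraic integer
for some odd natural number `m` (the localisation of the ring of algebraic integers at the odd
integers).  It contains `ℤ`, the inverses of odd integers and all roots of unity, and it does NOT
contain `1/2`.
Mathlib only.
-/
import Mathlib

set_option autoImplicit false

namespace Fermat.Agent.S16.U2Seven

/-- complex numbers `z` with `m * z` an algebraic integer for some odd `m : ℕ` -/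
def oddRing : Subring ℂ where
  carrier := {z | ∃ m : ℕ, Odd m ∧ IsIntegral ℤ ((m : ℂ) * z)}
  mul_mem' := by
    rintro a b ⟨m, hm, ha⟩ ⟨n, hn, hb⟩
    refine ⟨m * n, hm.mul hn, ?_⟩
    have : ((m * n : ℕ) : ℂ) * (a * b) = ((m : ℂ) * a) * ((n : ℂ) * b) := by push_cast; ring
    rw [this]
    exact ha.mul hb
  one_mem' := ⟨1, odd_one, by simpa using isIntegral_one⟩
  add_mem' := by
    rintro a b ⟨m, hm, ha⟩ ⟨n, hn, hb⟩
    refine ⟨m * n, hm.mul hn, ?_⟩
    have : ((m * n : ℕ) : ℂ) * (a + b) = (n : ℂ) * ((m : ℂ) * a) + (m : ℂ) * ((n : ℂ) * b) := by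
      push_cast; ring
    rw [this]
    have hn' : IsIntegral ℤ (n : ℂ) := by
      have := isIntegral_algebraMap (R := ℤ) (A := ℂ) (x := (n : ℤ))
      simpa using this
    have hm' : IsIntegral ℤ (m : ℂ) := by
      have := isIntegral_algebraMap (R := ℤ) (A := ℂ) (x := (m : ℤ))
      simpa using this
    exact (hn'.mul ha).add (hm'.mul hb)
  zero_mem' := ⟨1, odd_one, by simpa using isIntegral_zero⟩
  neg_mem' := by
    rintro a ⟨m, hm, ha⟩
    refine ⟨m, hm, ?_⟩
    rw [mul_neg]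
    exact ha.neg

theorem mem_oddRing {z : ℂ} : z ∈ oddRing ↔ ∃ m : ℕ, Odd m ∧ IsIntegral ℤ ((m : ℂ) * z) := Iff.rfl

/-- algebraic integers lie in `oddRing` -/
theorem mem_oddRing_of_isIntegral {z : ℂ} (hz : IsIntegral ℤ z) : z ∈ oddRing :=
  ⟨1, odd_one, by simpa using hz⟩

/-- roots of unity lie in `oddRing` -/
theorem mem_oddRing_of_pow_eq_one {z : ℂ} {n : ℕ} (hn : 0 < n) (hz : z ^ n = 1) : z ∈ oddRing :=
  mem_oddRing_of_isIntegral (IsIntegral.of_pow hn (by rw [hz]; exact isIntegral_one))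

/-- inverses of odd natural numbers lie in `oddRing` -/
theorem inv_natCast_mem_oddRing {m : ℕ} (hm : Odd m) : ((m : ℂ))⁻¹ ∈ oddRing := by
  refine ⟨m, hm, ?_⟩
  have hm0 : (m : ℂ) ≠ 0 := by
    have : m ≠ 0 := fun h => by simp [h] at hm
    exact_mod_cast this
  rw [mul_inv_cancel₀ hm0]
  exact isIntegral_one

/-- inverses of odd integers lie in `oddRing` -/
theorem inv_intCast_mem_oddRing {c : ℤ} (hc : ¬ (2 : ℤ) ∣ c) : ((c : ℂ))⁻¹ ∈ oddRing := by
  have hodd : Odd c.natAbs := by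
    rw [Int.natAbs_odd, ← Int.not_even_iff_odd, even_iff_two_dvd]
    exact hc
  have h := inv_natCast_mem_oddRing hodd
  rcases Int.natAbs_eq c with h1 | h1
  · have : (c : ℂ) = (c.natAbs : ℂ) := by
      have : (c : ℂ) = ((c.natAbs : ℤ) : ℂ) := by rw [← h1]
      rw [this, Int.cast_natCast]
    rw [this]; exact h
  · have : (c : ℂ) = -(c.natAbs : ℂ) := by
      have : (c : ℂ) = ((-(c.natAbs : ℤ) : ℤ) : ℂ) := by rw [← h1]
      rw [this, Int.cast_neg, Int.cast_natCast]
    rw [this, inv_neg]; exact oddRing.neg_mem h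

/-- `1/2` is not in `oddRing` -/
theorem inv_two_not_mem_oddRing : (2 : ℂ)⁻¹ ∉ oddRing := by
  rintro ⟨m, hm, h⟩
  have h1 : ((m : ℂ) * (2 : ℂ)⁻¹) = algebraMap ℚ ℂ ((m : ℚ) / 2) := by
    simp [div_eq_mul_inv]
  rw [h1, isIntegral_algebraMap_iff (algebraMap ℚ ℂ).injective] at h
  obtain ⟨y, hy⟩ := (IsIntegrallyClosed.isIntegral_iff (R := ℤ) (K := ℚ)).1 h
  have h2 : ((2 * y : ℤ) : ℚ) = ((m : ℤ) : ℚ) := by
    push_cast
    have : ((algebraMap ℤ ℚ) y : ℚ) = (y : ℚ) := rfl
    rw [this] at hy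
    rw [hy]; field_simp
  have h3 : (2 * y : ℤ) = (m : ℤ) := by exact_mod_cast h2
  have : Even (m : ℤ) := ⟨y, by rw [← h3]; ring⟩
  rw [Int.even_coe_nat] at this
  exact (Nat.not_even_iff_odd.2 hm) this

end Fermat.Agent.S16.U2Seven
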