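/-
T16 (S16) package U2b-7, file 6: the case `l = 2`, `p ≡ 7 mod 8` of the shared interface,
`noConstInt_two_seven : p % 8 = 7 → NoConstInt p 2 3`.

Glue of `false_of_conjugates` (`U2Seven/Main.lean`), the coefficient ring `oddRing`
(`U2Seven/OddRing.lean`) and helper71's conjugates package `Conj/Expand.lean`.
-/
import Mathlib
import Fermat.Prelude.Thm_CongruenceSubgroup_one_mem_strictPeriods_Gamma0
import Fermat.Agent.S16.NoConst
import Fermat.Agent.S16.Conj.Expand
import Fermat.Agent.S16.U2Seven.Main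
import Fermat.Agent.S16.U2Seven.OddRing

set_option autoImplicit false

noncomputable section

namespace Fermat.Agent.S16.U2Seven

open UpperHalfPlane ModularForm PowerSeries Function CongruenceSubgroup
open Fermat.Agent.S20.Puiseux
open scoped MatrixGroups ModularForm Manifold

/-- an `e`-periodic (as a function on `ℂ`) holomorphic bounded function is `IsPuiseux e` -/
theorem isPuiseux_of_periodic {e : ℕ} {g : ℍ → ℂ} (hm : MDiff g) (hb : IsBoundedAtImInfty g)
    (hper : Function.Periodic (g ∘ ofComplex) (e : ℂ)) : IsPuiseux e g where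
  mdiff := hm
  bdd := hb
  per := by
    intro z
    have h := hper (z : ℂ)
    simp only [Function.comp_apply] at h
    rw [ofComplex_apply] at h
    rw [← h]
    congr 1
    have him : 0 < ((z : ℂ) + (e : ℂ)).im := by simpa using z.im_pos
    rw [ofComplex_apply_of_im_pos him]
    ext
    simp [add_comm]

theorem coeff_qExp_smul {p : ℕ} (c : ℂ) (G : ModularForm (Gamma0 p) 2) (k : ℕ) :
    (qExpansion 1 (⇑(c • G) : ℍ → ℂ)).coeff k = c * (qExpansion 1 (⇑G : ℍ → ℂ)).coeff k := by
  have h1 : (⇑(c • G) : ℍ → ℂ) = c • (⇑G : ℍ → ℂ) := by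
    ext z
    simp
  rw [h1, ModularForm.qExpansion_smul one_pos (CongruenceSubgroup.one_mem_strictPeriods_Gamma0 p) c G]
  simp

/-- a power series `P` with `P ≡ 1 mod 8` coefficientwise (in `R`) is `1 + 8 w`, `w ∈ R[[q]]` -/
theorem exists_eq_one_add_eight (R : Subring ℂ) (P : PowerSeries ℂ)
    (h : ∀ n, (coeff n P - if n = 0 then 1 else 0) / 8 ∈ R) :
    ∃ w ∈ coeffSubring R, P = 1 + 8 * w := by
  refine ⟨PowerSeries.mk fun n => (coeff n P - if n = 0 then 1 else 0) / 8, ?_, ?_⟩
  · intro n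
    rw [coeff_mk]
    exact h n
  · ext n
    have h8 : (8 : PowerSeries ℂ) = C (8 : ℂ) := (map_ofNat C 8).symm
    rw [map_add, h8, coeff_C_mul, coeff_mk, coeff_one]
    ring

/-- **U2b-7**: for a prime `p ≡ 7 mod 8` there is no `G ∈ M₂(Γ₀(p))` with odd integral constant
term and all higher coefficients in `8ℤ`. -/
theorem noConstInt_two_seven (p : ℕ) [hp : Fact p.Prime] (h7 : p % 8 = 7) :
    Fermat.Agent.S16.NoConstInt p 2 3 := by
  rintro ⟨G, ⟨c₀, hc₀, h0⟩, hk⟩
  have : NeZero p := ⟨hp.out.ne_zero⟩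
  have hp0 : (p : ℂ) ≠ 0 := by exact_mod_cast hp.out.ne_zero
  have hc₀' : ¬ (2 : ℤ) ∣ c₀ := by simpa using hc₀
  have hc0 : (c₀ : ℂ) ≠ 0 := by
    have : c₀ ≠ 0 := fun h => hc₀' (by rw [h]; exact dvd_zero _)
    exact_mod_cast this
  have hpodd : Odd p := by
    rw [Nat.odd_iff]; omega
  -- the normalised form
  set G' : ModularForm (Gamma0 p) 2 := ((c₀ : ℂ))⁻¹ • G with hG'
  have hIs : Conj.Expand.IsG0 p 2 (⇑G' : ℍ → ℂ) := Conj.Expand.IsG0.of_modularForm G'
  have ha0 : (qExpansion 1 (⇑G' : ℍ → ℂ)).coeff 0 = 1 := by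
    rw [hG', coeff_qExp_smul, h0, inv_mul_cancel₀ hc0]
  have hak : ∀ k : ℕ, 1 ≤ k → ∃ c : ℤ,
      (qExpansion 1 (⇑G' : ℍ → ℂ)).coeff k = 8 * ((c : ℂ) * ((c₀ : ℂ))⁻¹) := by
    intro k hk1
    obtain ⟨c, hc⟩ := hk k hk1
    refine ⟨c, ?_⟩
    rw [hG', coeff_qExp_smul, hc]
    push_cast
    ring
  have hcinv : ((c₀ : ℂ))⁻¹ ∈ oddRing := inv_intCast_mem_oddRing hc₀'
  have hpinv : ((p : ℂ))⁻¹ ∈ oddRing := inv_natCast_mem_oddRing hpodd
  have hzeta : Conj.Expand.zeta p ∈ oddRing :=
    mem_oddRing_of_pow_eq_one hp.out.pos (Conj.Expand.zeta_pow_self p)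
  refine false_of_conjugates oddRing inv_two_not_mem_oddRing (ι := Conj.Idx p) p hp.out.pos
    (fun x => Conj.conj 2 p (⇑G' : ℍ → ℂ) x) ?_ ?_ ?_
  · intro x
    refine isPuiseux_of_periodic (Conj.Expand.mdiff_conj hIs.mdiff x)
      (hIs.isBoundedAtImInfty_conj x) ?_
    exact hIs.periodic_conj x
  · intro γ
    exact Conj.Expand.exists_perm_conj_slash hIs.inv γ
  · intro x
    rw [hIs.qExpansion_conj x]
    apply exists_eq_one_add_eight
    intro n
    cases x with
    | none =>
      rw [Conj.Expand.coeff_expSer_none]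
      by_cases hn : n = 0
      · subst hn
        simp only [dvd_zero, if_true, Nat.zero_div]
        rw [ha0]
        simp
      · rw [if_neg hn, sub_zero]
        split_ifs with hd
        · obtain ⟨m, rfl⟩ := hd
          have hm : 1 ≤ m := by
            rcases Nat.eq_zero_or_pos m with h | h
            · subst h; simp at hn
            · exact h
          rw [Nat.mul_div_cancel_left m hp.out.pos]
          obtain ⟨c, hc⟩ := hak m hm
          rw [hc, mul_div_cancel_left₀ _ (by norm_num : (8 : ℂ) ≠ 0)]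
          exact oddRing.mul_mem (intCast_mem oddRing c) hcinv
        · rw [zero_div]; exact oddRing.zero_mem
    | some j =>
      rw [hIs.coeff_expSer_some]
      by_cases hn : n = 0
      · subst hn
        rw [if_pos rfl]
        simp only [mul_zero, pow_zero, one_mul]
        rw [ha0]
        -- `-(1/p) - 1 = -8 * ((p+1)/8) / p`
        obtain ⟨t, ht⟩ : ∃ t : ℕ, p + 1 = 8 * t := ⟨(p + 1) / 8, by omega⟩
        have : (-(1 / (p : ℂ)) - 1) / 8 = -((t : ℂ) * ((p : ℂ))⁻¹) := by
          have h1 : ((p : ℂ) + 1) = 8 * (t : ℂ) := by exact_mod_cast ht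
          field_simp
          linear_combination (-1 : ℂ) * h1
        rw [this]
        exact oddRing.neg_mem (oddRing.mul_mem (natCast_mem oddRing t) hpinv)
      · rw [if_neg hn, sub_zero]
        have hm : 1 ≤ p * n := Nat.mul_pos hp.out.pos (Nat.pos_of_ne_zero hn)
        obtain ⟨c, hc⟩ := hak (p * n) hm
        rw [hc]
        have : -(Conj.Expand.zeta p ^ ((j : ℕ) * n) * (8 * ((c : ℂ) * ((c₀ : ℂ))⁻¹)) / (p : ℂ)) / 8
            = -(Conj.Expand.zeta p ^ ((j : ℕ) * n) * ((c : ℂ) * ((c₀ : ℂ))⁻¹) * ((p : ℂ))⁻¹) := by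
          field_simp
        rw [this]
        exact oddRing.neg_mem (oddRing.mul_mem (oddRing.mul_mem (oddRing.pow_mem hzeta _)
          (oddRing.mul_mem (intCast_mem oddRing c) hcinv)) hpinv)

end Fermat.Agent.S16.U2Seven
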