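/-
T16 (S16) package U2b-7: the case `l = 2`, `p ≡ 7 mod 8` of the upper bound, identity route
(report 174).  This file: the pure ring identities.

For `G = 1 + 8w`, `E₄ = 1 + 16u`, `E₆ = 1 - 8v` with `v + 3u = 4t` the four auxiliary elements
  `F = (G E₄ - E₆)/8`, `H = (G² - E₄)/16`, `K = (G F - E₄ H)/4`, `L = (F - G H)/2`
are polynomials in `w, u, v, t` with INTEGER coefficients, and if `E₄³ - E₆² = 1728 Δ` then
  `27 Δ = E₄ (K - H²) - 4 (4 H³ + G H L + L²)`.
-/
import Mathlib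

set_option autoImplicit false

namespace Fermat.Agent.S16.U2Seven

variable {A : Type*} [CommRing A]

/-- `F = (G E₄ - E₆)/8`. -/
def auxF (w u v : A) : A := w + v + 2 * u + 16 * u * w

/-- `H = (G² - E₄)/16`. -/
def auxH (w u : A) : A := w - u + 4 * w ^ 2

/-- `K = (G F - E₄ H)/4`. -/
def auxK (w u v t : A) : A := t + 4 * u * w + w ^ 2 + 2 * w * v + 16 * u * w ^ 2 + 4 * u ^ 2

/-- `L = (F - G H)/2`. -/
def auxL (w u t : A) : A := 2 * t + 12 * u * w - 6 * w ^ 2 - 16 * w ^ 3

/-- `X = K - H²` (weight `8`). -/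
def auxX (w u v t : A) : A := auxK w u v t - auxH w u ^ 2

/-- `Y = 4 H³ + G H L + L²` (weight `12`). -/
def auxY (w u t : A) : A :=
  4 * auxH w u ^ 3 + (1 + 8 * w) * auxH w u * auxL w u t + auxL w u t ^ 2

theorem eight_mul_auxF (w u v : A) :
    8 * auxF w u v = (1 + 8 * w) * (1 + 16 * u) - (1 - 8 * v) := by
  unfold auxF; ring

theorem sixteen_mul_auxH (w u : A) :
    16 * auxH w u = (1 + 8 * w) ^ 2 - (1 + 16 * u) := by
  unfold auxH; ring

theorem four_mul_auxK (w u v t : A) (hvu : v + 3 * u = 4 * t) :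
    4 * auxK w u v t = (1 + 8 * w) * auxF w u v - (1 + 16 * u) * auxH w u := by
  unfold auxK auxF auxH; linear_combination (-1 : A) * hvu

theorem two_mul_auxL (w u v t : A) (hvu : v + 3 * u = 4 * t) :
    2 * auxL w u t = auxF w u v - (1 + 8 * w) * auxH w u := by
  unfold auxL auxF auxH; linear_combination (-1 : A) * hvu

/-- `256 X = -G⁴ + 6 G² E₄ - 8 G E₆ + 3 E₄²`. -/
theorem auxX_256 (w u v t : A) (hvu : v + 3 * u = 4 * t) :
    256 * auxX w u v t = -(1 + 8 * w) ^ 4 + 6 * (1 + 8 * w) ^ 2 * (1 + 16 * u)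
      - 8 * (1 + 8 * w) * (1 - 8 * v) + 3 * (1 + 16 * u) ^ 2 := by
  unfold auxX auxK auxH
  linear_combination (-64 : A) * hvu

/-- ring homomorphisms commute with `auxX`. -/
theorem map_auxX {B : Type*} [CommRing B] (φ : A →+* B) (w u v t : A) :
    φ (auxX w u v t) = auxX (φ w) (φ u) (φ v) (φ t) := by
  simp only [auxX, auxK, auxH, map_sub, map_add, map_mul, map_pow, map_ofNat]

/-- The key identity, multiplied by `64`. -/
theorem key_identity_mul (w u v t D : A) (hvu : v + 3 * u = 4 * t)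
    (hD : (1 + 16 * u) ^ 3 - (1 - 8 * v) ^ 2 = 1728 * D) :
    64 * (27 * D) = 64 * ((1 + 16 * u) * auxX w u v t - 4 * auxY w u t) := by
  have hv : v = 4 * t - 3 * u := by linear_combination hvu
  subst hv
  unfold auxX auxY auxK auxH auxL
  linear_combination (-1 : A) * hD

/-- The key identity in a ring where `64` is cancellable. -/
theorem key_identity (h64 : IsLeftRegular (64 : A)) (w u v t D : A) (hvu : v + 3 * u = 4 * t)
    (hD : (1 + 16 * u) ^ 3 - (1 - 8 * v) ^ 2 = 1728 * D) :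
    27 * D = (1 + 16 * u) * auxX w u v t - 4 * auxY w u t :=
  h64 (key_identity_mul w u v t D hvu hD)

end Fermat.Agent.S16.U2Seven
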