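/-
T16 (S16) package U2b-7, file 3: `q^(1/e)`-expansions.

* `pSubring e` : the ring of holomorphic, bounded, `e`-periodic functions on `ℍ` (helper98's
  `IsPuiseux e`), `qHom e : pSubring e →+* PowerSeries ℂ` its expansion in `𝕢 e`.
* period change: for a `1`-periodic `f`, the `𝕢 e`-expansion of `f` is the `𝕢 1`-expansion
  stretched by `e` (`coeff_qExpansion_of_one`).
* the `𝕢 e`-expansions of `E₄`, `E₆` are `1 + 16 u`, `1 - 8 v` with `v + 3 u = 4 t`, `u v t`
  with INTEGER coefficients.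
-/
import Mathlib
import Fermat.Agent.S20.PuiseuxDet
import Fermat.Agent.S16.U2Seven.LevelOneSturm

set_option autoImplicit false

noncomputable section

namespace Fermat.Agent.S16.U2Seven

open UpperHalfPlane ModularForm EisensteinSeries PowerSeries ModularCurve Function
open Fermat.Agent.S28 Fermat.Agent.S23 Fermat.Agent.S20.Puiseux
open scoped MatrixGroups ModularForm Manifold

local notation "Δ" => ModularForm.discriminant
local notation "𝕢" => Periodic.qParam

/-! ### The ring of `e`-periodic holomorphic bounded functions -/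

/-- the subring of holomorphic, bounded, `e`-periodic functions on the upper half plane -/
def pSubring (e : ℕ) : Subring (ℍ → ℂ) where
  carrier := {g | IsPuiseux e g}
  mul_mem' h₁ h₂ := h₁.mul h₂
  one_mem' := isPuiseux_one e
  add_mem' h₁ h₂ := h₁.add h₂
  zero_mem' := isPuiseux_zero e
  neg_mem' h := h.neg

theorem mem_pSubring {e : ℕ} {g : ℍ → ℂ} : g ∈ pSubring e ↔ IsPuiseux e g := Iff.rfl

/-- `qExpansion e` as a ring homomorphism on `pSubring e` -/
def qHom (e : ℕ) (he : 0 < e) : pSubring e →+* PowerSeries ℂ where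
  toFun g := qExpansion (e : ℝ) (g : ℍ → ℂ)
  map_one' := qExpansion_one _
  map_mul' g₁ g₂ := qExpansion_mul (g₁.2.analyticAt he) (g₂.2.analyticAt he)
  map_zero' := qExpansion_zero _
  map_add' g₁ g₂ := qExpansion_add (g₁.2.analyticAt he) (g₂.2.analyticAt he)

@[simp]
theorem qHom_apply (e : ℕ) (he : 0 < e) (g : pSubring e) :
    qHom e he g = qExpansion (e : ℝ) (g : ℍ → ℂ) := rfl

theorem qHom_algebraMap (e : ℕ) (he : 0 < e) (c : ℂ) (hc : (fun _ : ℍ => c) ∈ pSubring e) :
    qHom e he ⟨fun _ => c, hc⟩ = C c := by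
  have h1 : (fun _ : ℍ => c) = c • (1 : ℍ → ℂ) := by
    funext z; simp
  rw [qHom_apply]
  simp only
  rw [h1, qExpansion_smul ((isPuiseux_one e).analyticAt he), qExpansion_one]
  ext n
  simp [coeff_C, coeff_one]

/-! ### Period change -/

/-- stretch a power series by `e` : `X ↦ X ^ e` (coefficientwise definition) -/
def stretch (e : ℕ) {A : Type*} [Semiring A] (P : PowerSeries A) : PowerSeries A :=
  PowerSeries.mk fun m => if e ∣ m then coeff (m / e) P else 0

@[simp] theorem coeff_stretch (e : ℕ) {A : Type*} [Semiring A] (P : PowerSeries A) (m : ℕ) :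
    coeff m (stretch e P) = if e ∣ m then coeff (m / e) P else 0 := by
  simp [stretch]

theorem coeff_stretch_mul (e : ℕ) (he : 0 < e) {A : Type*} [Semiring A] (P : PowerSeries A)
    (m : ℕ) : coeff (e * m) (stretch e P) = coeff m P := by
  rw [coeff_stretch, if_pos (dvd_mul_right e m), Nat.mul_div_cancel_left m he]

theorem isPuiseux_one_of_isMF {k : ℤ} {F : ℍ → ℂ} (hF : IsMF 𝒮ℒ k F) : IsPuiseux 1 F where
  mdiff := hF.mdiff
  bdd := hF.isBoundedAtImInfty
  per z := by
    obtain ⟨F', rfl⟩ := hF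
    have := SlashInvariantForm.vAdd_apply_of_mem_strictPeriods F' z
      (h := 1) one_mem_strictPeriods_SL
    simpa using this

/-- **Period change.** -/
theorem qExpansion_of_one {f : ℍ → ℂ} (hf : IsPuiseux 1 f) (e : ℕ) (he : 0 < e) :
    qExpansion (e : ℝ) f = stretch e (qExpansion (1 : ℝ) f) := by
  have hfe := hf.of_one e
  ext m
  symm
  rw [coeff_stretch]
  refine qExpansion_coeff_unique' (h := (e : ℝ)) (by exact_mod_cast he) hfe.periodic hfe.mdiff
    hfe.bdd (c := fun m => if e ∣ m then coeff (m / e) (qExpansion (1 : ℝ) f) else 0)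
    (fun τ => ?_) m
  have h1 := hf.hasSum one_pos τ
  simp only [Nat.cast_one] at h1
  have hq : 𝕢 (1 : ℝ) τ = 𝕢 (e : ℝ) τ ^ e := (qParam_pow_eq e he τ).symm
  have hinj : Function.Injective (fun n : ℕ => e * n) :=
    fun a b hab => Nat.eq_of_mul_eq_mul_left he hab
  rw [← hinj.hasSum_iff]
  · convert h1 using 2 with n
    simp only [Function.comp_apply, dvd_mul_right, if_true, Nat.mul_div_cancel_left _ he]
    rw [hq, ← pow_mul]
  · intro m hm
    have : ¬ e ∣ m := by
      rintro ⟨n, rfl⟩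
      exact hm ⟨n, rfl⟩
    simp [this]

/-! ### `E₄`, `E₆` as `1 + 16 u`, `1 - 8 v` -/

/-- `u = 15 ∑ σ₃(n) qⁿ` -/
def uZ : PowerSeries ℤ :=
  PowerSeries.mk fun n => if n = 0 then 0 else 15 * ∑ d ∈ n.divisors, (d : ℤ) ^ 3

/-- `v = 63 ∑ σ₅(n) qⁿ` -/
def vZ : PowerSeries ℤ :=
  PowerSeries.mk fun n => if n = 0 then 0 else 63 * ∑ d ∈ n.divisors, (d : ℤ) ^ 5

/-- `t = (v + 3 u) / 4` -/
def tZ : PowerSeries ℤ :=
  PowerSeries.mk fun n => if n = 0 then 0 else ∑ d ∈ n.divisors, (63 * (d : ℤ) ^ 5 + 45 * (d : ℤ) ^ 3) / 4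

theorem four_dvd_aux (d : ℤ) : (4 : ℤ) ∣ 63 * d ^ 5 + 45 * d ^ 3 := by
  have h : ∀ r : ZMod 4, 63 * r ^ 5 + 45 * r ^ 3 = 0 := by decide
  have := h (d : ZMod 4)
  have h2 : ((63 * d ^ 5 + 45 * d ^ 3 : ℤ) : ZMod 4) = 0 := by
    push_cast
    exact this
  exact (ZMod.intCast_zmod_eq_zero_iff_dvd _ 4).mp h2

theorem eisenstein4_eq : eisenstein4 = 1 + 16 * uZ := by
  ext n
  rcases eq_or_ne n 0 with rfl | hn
  · simp [eisenstein4, uZ]
  · have h16 : ((16 : PowerSeries ℤ)) = C (16 : ℤ) := by simp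
    rw [map_add, h16, coeff_C_mul]
    simp [eisenstein4, uZ, hn, coeff_one]
    ring

theorem eis6Z_eq : eis6Z = 1 - 8 * vZ := by
  ext n
  rcases eq_or_ne n 0 with rfl | hn
  · simp [eis6Z, vZ]
  · have h8 : ((8 : PowerSeries ℤ)) = C (8 : ℤ) := by simp
    rw [map_sub, h8, coeff_C_mul]
    simp [eis6Z, vZ, hn, coeff_one]
    ring

theorem vZ_add : vZ + 3 * uZ = 4 * tZ := by
  ext n
  have h3 : ((3 : PowerSeries ℤ)) = C (3 : ℤ) := by simp
  have h4 : ((4 : PowerSeries ℤ)) = C (4 : ℤ) := by simp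
  rw [map_add, h3, h4, coeff_C_mul, coeff_C_mul]
  rcases eq_or_ne n 0 with rfl | hn
  · simp [vZ, uZ, tZ]
  · simp only [vZ, uZ, tZ, coeff_mk, hn, if_false]
    rw [Finset.mul_sum, Finset.mul_sum, Finset.mul_sum, Finset.mul_sum, ← Finset.sum_add_distrib]
    refine Finset.sum_congr rfl fun d _ => ?_
    rw [Int.mul_ediv_cancel' (four_dvd_aux d)]
    ring

end Fermat.Agent.S16.U2Seven
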