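/-
T16 (S16) package U2b-7, file 4: the main abstract theorem.

`false_of_conjugates`: a finite family `G x` of holomorphic, bounded, `e`-periodic functions on `ℍ`
which is permuted by the weight-2 slash action of `SL(2,ℤ)` and all of whose `𝕢 e`-expansions are
`1 + 8 w_x` with `w_x` having coefficients in a subring `R ⊆ ℂ` not containing `1/2`, cannot exist.
(Application: the `p + 1` conjugates of `G ∈ M_2(Γ0(p))`, `G ≡ 1 mod 8`, `p ≡ 7 mod 8`.)
-/
import Mathlib
import Fermat.Agent.S20.LevelOneWH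
import Fermat.Agent.S16.U2Seven.Algebra
import Fermat.Agent.S16.U2Seven.Expansions

set_option autoImplicit false

noncomputable section

namespace Fermat.Agent.S16.U2Seven

open UpperHalfPlane ModularForm EisensteinSeries PowerSeries ModularCurve Function
open Fermat.Agent.S28 Fermat.Agent.S23 Fermat.Agent.S20.Puiseux Fermat.Agent.S20.LevelOneWH
open scoped MatrixGroups ModularForm Manifold

local notation "Δ" => ModularForm.discriminant

/-! ### Power series with coefficients in a subring -/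

/-- power series all of whose coefficients lie in the subring `R` -/
def coeffSubring (R : Subring ℂ) : Subring (PowerSeries ℂ) where
  carrier := {P | ∀ n, coeff n P ∈ R}
  mul_mem' := by
    intro P Q hP hQ n
    rw [coeff_mul]
    exact R.sum_mem fun ij _ => R.mul_mem (hP _) (hQ _)
  one_mem' := by
    intro n
    rw [coeff_one]
    split_ifs
    · exact R.one_mem
    · exact R.zero_mem
  add_mem' := by
    intro P Q hP hQ n
    rw [map_add]
    exact R.add_mem (hP n) (hQ n)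
  zero_mem' := by
    intro n
    rw [map_zero]
    exact R.zero_mem
  neg_mem' := by
    intro P hP n
    rw [map_neg]
    exact R.neg_mem (hP n)

theorem mem_coeffSubring {R : Subring ℂ} {P : PowerSeries ℂ} :
    P ∈ coeffSubring R ↔ ∀ n, coeff n P ∈ R := Iff.rfl

theorem toC_mem_coeffSubring (R : Subring ℂ) (Q : PowerSeries ℤ) : toC Q ∈ coeffSubring R := by
  intro n
  rw [coeff_toC]
  exact intCast_mem R _

theorem stretch_mem_coeffSubring {R : Subring ℂ} (e : ℕ) {P : PowerSeries ℂ}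
    (hP : P ∈ coeffSubring R) : stretch e P ∈ coeffSubring R := by
  intro n
  rw [coeff_stretch]
  split_ifs
  · exact hP _
  · exact R.zero_mem

/-! ### linearity of `stretch` -/

theorem stretch_one (e : ℕ) (he : 0 < e) {A : Type*} [Semiring A] :
    stretch e (1 : PowerSeries A) = 1 := by
  ext m
  rw [coeff_stretch, coeff_one, coeff_one]
  by_cases hm : m = 0
  · subst hm; simp
  · rw [if_neg hm]
    split_ifs with h1 h2
    · obtain ⟨c, rfl⟩ := h1
      rw [Nat.mul_div_cancel_left c he] at h2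
      subst h2
      simp at hm
    · rfl
    · rfl

theorem stretch_add (e : ℕ) {A : Type*} [Semiring A] (P Q : PowerSeries A) :
    stretch e (P + Q) = stretch e P + stretch e Q := by
  ext m
  rw [map_add, coeff_stretch, coeff_stretch, coeff_stretch]
  split_ifs <;> simp

theorem stretch_sub (e : ℕ) {A : Type*} [Ring A] (P Q : PowerSeries A) :
    stretch e (P - Q) = stretch e P - stretch e Q := by
  ext m
  rw [map_sub, coeff_stretch, coeff_stretch, coeff_stretch]
  split_ifs <;> simp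

theorem stretch_C_mul (e : ℕ) {A : Type*} [Semiring A] (a : A) (P : PowerSeries A) :
    stretch e (C a * P) = C a * stretch e P := by
  ext m
  rw [coeff_C_mul, coeff_stretch, coeff_stretch]
  split_ifs <;> simp

/-! ### The weight-8 function `X = K - H²` -/

/-- `X(g) = (-g⁴ + 6 g² E₄ - 8 g E₆ + 3 E₄²)/256`, of weight `8` if `g` has weight `2`. -/
def Xfun (g : ℍ → ℂ) : ℍ → ℂ :=
  (256 : ℂ)⁻¹ • (-(g ^ 4) + 6 * g ^ 2 * (E₄ : ℍ → ℂ) - 8 * g * (E₆ : ℍ → ℂ)
    + 3 * (E₄ : ℍ → ℂ) ^ 2)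

theorem Xfun_mul (g : ℍ → ℂ) :
    (256 : ℍ → ℂ) * Xfun g = -(g ^ 4) + 6 * g ^ 2 * (E₄ : ℍ → ℂ) - 8 * g * (E₆ : ℍ → ℂ)
      + 3 * (E₄ : ℍ → ℂ) ^ 2 := by
  funext z
  simp only [Xfun, Pi.mul_apply, Pi.smul_apply, smul_eq_mul, Pi.ofNat_apply]
  rw [← mul_assoc, mul_inv_cancel₀ (by norm_num : (256 : ℂ) ≠ 0), one_mul]

theorem isPuiseux_E4 (e : ℕ) : IsPuiseux e (E₄ : ℍ → ℂ) :=
  (isPuiseux_one_of_isMF isMF_E4).of_one e

theorem isPuiseux_E6 (e : ℕ) : IsPuiseux e (E₆ : ℍ → ℂ) :=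
  (isPuiseux_one_of_isMF isMF_E6).of_one e

theorem isPuiseux_discriminant (e : ℕ) : IsPuiseux e (Δ : ℍ → ℂ) :=
  (isPuiseux_one_of_isMF (k := 12) ⟨CuspForm.discriminant, rfl⟩).of_one e

theorem isPuiseux_Xfun {e : ℕ} {g : ℍ → ℂ} (hg : IsPuiseux e g) : IsPuiseux e (Xfun g) := by
  unfold Xfun
  refine IsPuiseux.smul ?_ _
  have hg' : g ∈ pSubring e := hg
  have h4 : (E₄ : ℍ → ℂ) ∈ pSubring e := isPuiseux_E4 e
  have h6 : (E₆ : ℍ → ℂ) ∈ pSubring e := isPuiseux_E6 e
  have := (pSubring e).add_mem ((pSubring e).sub_mem ((pSubring e).add_mem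
    ((pSubring e).neg_mem ((pSubring e).pow_mem hg' 4))
    ((pSubring e).mul_mem ((pSubring e).mul_mem (ofNat_mem (pSubring e) 6)
      ((pSubring e).pow_mem hg' 2)) h4))
    ((pSubring e).mul_mem ((pSubring e).mul_mem (ofNat_mem (pSubring e) 8) hg') h6))
    ((pSubring e).mul_mem (ofNat_mem (pSubring e) 3) ((pSubring e).pow_mem h4 2))
  exact this

theorem Xfun_smul {g g' : ℍ → ℂ} (γ : SL(2, ℤ)) (z : ℍ)
    (h : g (γ • z) = denom γ z ^ (2 : ℤ) * g' z) :
    Xfun g (γ • z) = denom γ z ^ (8 : ℤ) * Xfun g' z := by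
  simp only [Xfun, Pi.smul_apply, Pi.add_apply, Pi.sub_apply, Pi.neg_apply, Pi.mul_apply,
    Pi.pow_apply, Pi.ofNat_apply, smul_eq_mul]
  rw [h, modularForm_smul E₄ γ z, modularForm_smul E₆ γ z]
  have h2 : denom γ z ^ (2 : ℤ) = denom γ z ^ 2 := zpow_ofNat _ 2
  have h4 : denom γ z ^ (4 : ℤ) = denom γ z ^ 4 := zpow_ofNat _ 4
  have h6 : denom γ z ^ (6 : ℤ) = denom γ z ^ 6 := zpow_ofNat _ 6
  have h8 : denom γ z ^ (8 : ℤ) = denom γ z ^ 8 := zpow_ofNat _ 8
  rw [h2, h4, h6, h8]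
  ring

/-! ### Level-one data at period `e` -/

section PeriodE

variable (e : ℕ) (he : 0 < e)

/-- `u` at period `e` -/
def Ue : PowerSeries ℂ := stretch e (toC uZ)
/-- `v` at period `e` -/
def Ve : PowerSeries ℂ := stretch e (toC vZ)
/-- `t` at period `e` -/
def Te : PowerSeries ℂ := stretch e (toC tZ)
/-- `Δ` at period `e` -/
def De : PowerSeries ℂ := qExpansion (e : ℝ) (Δ : ℍ → ℂ)

theorem Ue_mem (R : Subring ℂ) : Ue e ∈ coeffSubring R :=
  stretch_mem_coeffSubring e (toC_mem_coeffSubring R _)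
theorem Ve_mem (R : Subring ℂ) : Ve e ∈ coeffSubring R :=
  stretch_mem_coeffSubring e (toC_mem_coeffSubring R _)
theorem Te_mem (R : Subring ℂ) : Te e ∈ coeffSubring R :=
  stretch_mem_coeffSubring e (toC_mem_coeffSubring R _)

theorem ofNat_eq_C (n : ℕ) [n.AtLeastTwo] {A : Type*} [Semiring A] :
    (OfNat.ofNat n : PowerSeries A) = C (OfNat.ofNat n : A) := (map_ofNat C n).symm

include he in
theorem qExpansion_E4_e : qExpansion (e : ℝ) (E₄ : ℍ → ℂ) = 1 + 16 * Ue e := by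
  rw [qExpansion_of_one (isPuiseux_one_of_isMF isMF_E4) e he, qExpansion_E4, eisenstein4_eq,
    toC_add, toC_one, toC_mul, stretch_add, stretch_one e he]
  have : toC (16 : PowerSeries ℤ) = C (16 : ℂ) := by
    rw [toC, map_ofNat]; exact ofNat_eq_C 16
  rw [this, stretch_C_mul, ← ofNat_eq_C 16]
  rfl

include he in
theorem qExpansion_E6_e : qExpansion (e : ℝ) (E₆ : ℍ → ℂ) = 1 - 8 * Ve e := by
  rw [qExpansion_of_one (isPuiseux_one_of_isMF isMF_E6) e he, qExpansion_E6, eis6Z_eq,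
    toC_sub, toC_one, toC_mul, stretch_sub, stretch_one e he]
  have : toC (8 : PowerSeries ℤ) = C (8 : ℂ) := by
    rw [toC, map_ofNat]; exact ofNat_eq_C 8
  rw [this, stretch_C_mul, ← ofNat_eq_C 8]
  rfl

theorem Ve_add : Ve e + 3 * Ue e = 4 * Te e := by
  have h := congrArg (fun P => stretch e (toC P)) vZ_add
  simp only [toC_add, toC_mul, stretch_add] at h
  have h3 : toC (3 : PowerSeries ℤ) = C (3 : ℂ) := by
    rw [toC, map_ofNat]; exact ofNat_eq_C 3
  have h4 : toC (4 : PowerSeries ℤ) = C (4 : ℂ) := by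
    rw [toC, map_ofNat]; exact ofNat_eq_C 4
  rw [h3, h4, stretch_C_mul, stretch_C_mul, ← ofNat_eq_C 3, ← ofNat_eq_C 4] at h
  exact h

include he in
theorem De_eq : De e = stretch e (X * toC dedekindEtaUnit) := by
  rw [De, qExpansion_of_one (isPuiseux_discriminant 1) e he, qExpansion_discriminant]

include he in
theorem De_mem (R : Subring ℂ) : De e ∈ coeffSubring R := by
  rw [De_eq e he, ← toC_X, ← toC_mul]
  exact stretch_mem_coeffSubring e (toC_mem_coeffSubring R _)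

/-- `E₄`, `E₆`, `Δ` as elements of `pSubring e`. -/
def E4S : pSubring e := ⟨(E₄ : ℍ → ℂ), isPuiseux_E4 e⟩
/-- `E₆` as an element of `pSubring e`. -/
def E6S : pSubring e := ⟨(E₆ : ℍ → ℂ), isPuiseux_E6 e⟩
/-- `Δ` as an element of `pSubring e`. -/
def DS : pSubring e := ⟨(Δ : ℍ → ℂ), isPuiseux_discriminant e⟩

theorem E4S_cube_sub : E4S e ^ 3 - E6S e ^ 2 = 1728 * DS e := by
  apply Subtype.ext
  funext z
  have := discriminant_eq_E₄_cube_sub_E₆_sq z
  change E₄ z ^ 3 - E₆ z ^ 2 = 1728 * Δ z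
  rw [this]
  ring

include he in
theorem hD_e : (1 + 16 * Ue e) ^ 3 - (1 - 8 * Ve e) ^ 2 = 1728 * De e := by
  have h := congrArg (qHom e he) (E4S_cube_sub e)
  simp only [map_sub, map_pow, map_mul, map_ofNat] at h
  rw [← qExpansion_E4_e e he, ← qExpansion_E6_e e he]
  exact h

end PeriodE

/-! ### The main theorem -/

/-- `{2 r : r ∈ R}` as an additive subgroup of `ℂ`. -/
def twoMul (R : Subring ℂ) : AddSubgroup ℂ :=
  R.toAddSubgroup.map (AddMonoidHom.mulLeft (2 : ℂ))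

theorem mem_twoMul {R : Subring ℂ} {z : ℂ} : z ∈ twoMul R ↔ ∃ r ∈ R, 2 * r = z := by
  simp [twoMul, AddSubgroup.mem_map]

theorem coeff_X_mul_unit_pow (n m : ℕ) :
    coeff m ((X * toC dedekindEtaUnit : PowerSeries ℂ) ^ n) =
      if m < n then 0 else coeff (m - n) (toC dedekindEtaUnit ^ n) := by
  rw [mul_pow, coeff_X_pow_mul']
  split_ifs with h1 h2 h2
  · omega
  · rfl
  · rfl
  · omega

theorem coeff_self_X_mul_unit_pow (n : ℕ) :
    coeff n ((X * toC dedekindEtaUnit : PowerSeries ℂ) ^ n) = 1 := by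
  rw [coeff_X_mul_unit_pow, if_neg (lt_irrefl n), Nat.sub_self, ← toC_pow, coeff_toC,
    PowerSeries.coeff_zero_eq_constantCoeff, map_pow, constantCoeff_dedekindEtaUnit]
  simp

/-- The expansion of `X(g)` when `g = 1 + 8 w`. -/
theorem qExpansion_Xfun {e : ℕ} (he : 0 < e) {g : ℍ → ℂ} (hg : IsPuiseux e g)
    {w : PowerSeries ℂ} (hw : qExpansion (e : ℝ) g = 1 + 8 * w) :
    qExpansion (e : ℝ) (Xfun g) = auxX w (Ue e) (Ve e) (Te e) := by
  set gS : pSubring e := ⟨g, hg⟩
  set XS : pSubring e := ⟨Xfun g, isPuiseux_Xfun hg⟩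
  have h256 : (256 : pSubring e) * XS
      = -(gS ^ 4) + 6 * gS ^ 2 * E4S e - 8 * gS * E6S e + 3 * E4S e ^ 2 :=
    Subtype.ext (Xfun_mul g)
  have h := congrArg (qHom e he) h256
  simp only [map_sub, map_add, map_neg, map_pow, map_mul, map_ofNat] at h
  have hgS : qHom e he gS = 1 + 8 * w := hw
  have h4 : qHom e he (E4S e) = 1 + 16 * Ue e := qExpansion_E4_e e he
  have h6 : qHom e he (E6S e) = 1 - 8 * Ve e := qExpansion_E6_e e he
  rw [hgS, h4, h6] at h
  have hX : qHom e he XS = qExpansion (e : ℝ) (Xfun g) := rfl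
  rw [hX] at h
  have h2 := auxX_256 w (Ue e) (Ve e) (Te e) (Ve_add e)
  have h256ne : (256 : PowerSeries ℂ) ≠ 0 := by
    rw [ofNat_eq_C 256]
    intro h0
    have := congrArg (coeff 0) h0
    simp at this
  apply mul_left_cancel₀ h256ne
  rw [h, h2]

theorem false_of_conjugates (R : Subring ℂ) (h2 : (2 : ℂ)⁻¹ ∉ R)
    {ι : Type*} [Fintype ι] [Nonempty ι] (e : ℕ) (he : 0 < e)
    (G : ι → ℍ → ℂ) (hG : ∀ x, IsPuiseux e (G x))
    (hperm : ∀ γ : SL(2, ℤ), ∃ σ : Equiv.Perm ι, ∀ x, (G x) ∣[(2 : ℤ)] γ = G (σ x))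
    (hexp : ∀ x, ∃ w ∈ coeffSubring R, qExpansion (e : ℝ) (G x) = 1 + 8 * w) : False := by
  classical
  set n := Fintype.card ι with hn
  have hn0 : 0 < n := Fintype.card_pos
  choose w hw hgw using hexp
  -- the product `P`
  set P : ℍ → ℂ := ∏ x, Xfun (G x) with hP
  have hPe : IsPuiseux e P :=
    (pSubring e).prod_mem (fun x _ => isPuiseux_Xfun (hG x))
  have hPsmul : ∀ (γ : SL(2, ℤ)) (z : ℍ),
      P (γ • z) = denom γ z ^ ((8 * n : ℕ) : ℤ) * P z := by
    intro γ z
    obtain ⟨σ, hσ⟩ := hperm γ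
    have hx : ∀ x, G x (γ • z) = denom γ z ^ (2 : ℤ) * G (σ x) z := by
      intro x
      have := congrFun (hσ x) z
      rw [SL_slash_apply, zpow_neg] at this
      have hd : denom γ z ^ (2 : ℤ) ≠ 0 := zpow_ne_zero _ (denom_ne_zero γ z)
      rw [← this]
      field_simp
    simp only [hP, Finset.prod_apply]
    rw [Finset.prod_congr rfl (fun x _ => Xfun_smul γ z (hx x)), Finset.prod_mul_distrib,
      Finset.prod_const, Equiv.prod_comp σ (fun x => Xfun (G x) z), Finset.card_univ, ← hn]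
    congr 1
    rw [zpow_natCast, ← zpow_natCast (denom γ z ^ (8 : ℤ)) n, ← zpow_mul]
    norm_cast
  have hPinv : ∀ γ : SL(2, ℤ), P ∣[((8 * n : ℕ) : ℤ)] γ = P :=
    fun γ => (slash_eq_iff_smul γ).mpr (hPsmul γ)
  have hPmf : IsMF 𝒮ℒ ((8 * n : ℕ) : ℤ) P := ⟨mkLevelOne _ P hPe.mdiff hPinv hPe.bdd, rfl⟩
  have hP1 : IsPuiseux 1 P := isPuiseux_one_of_isMF hPmf
  -- expansions at period `e`
  have hXexp : ∀ x, qExpansion (e : ℝ) (Xfun (G x)) = auxX (w x) (Ue e) (Ve e) (Te e) :=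
    fun x => qExpansion_Xfun he (hG x) (hgw x)
  have hPexp : qExpansion (e : ℝ) P = ∏ x, auxX (w x) (Ue e) (Ve e) (Te e) := by
    have h1 : P = ((∏ x, (⟨Xfun (G x), isPuiseux_Xfun (hG x)⟩ : pSubring e) : pSubring e) : ℍ → ℂ) := by
      rw [hP, SubmonoidClass.coe_finsetProd]
    have h2 := map_prod (qHom e he) (fun x => (⟨Xfun (G x), isPuiseux_Xfun (hG x)⟩ : pSubring e))
      Finset.univ
    rw [qHom_apply, ← h1] at h2
    rw [h2]
    exact Finset.prod_congr rfl (fun x _ => hXexp x)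
  -- work in the subring `S` of series with coefficients in `R`
  set S := coeffSubring R with hS
  let wS : ι → S := fun x => ⟨w x, hw x⟩
  let US : S := ⟨Ue e, Ue_mem e R⟩
  let VS : S := ⟨Ve e, Ve_mem e R⟩
  let TS : S := ⟨Te e, Te_mem e R⟩
  let DhS : S := ⟨De e, De_mem e he R⟩
  have hvuS : VS + 3 * US = 4 * TS := Subtype.ext (Ve_add e)
  have hDS : (1 + 16 * US) ^ 3 - (1 - 8 * VS) ^ 2 = 1728 * DhS := Subtype.ext (hD_e e he)
  have h64 : IsLeftRegular (64 : S) := by
    have h64ne : (64 : S) ≠ 0 := by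
      intro h0
      have := congrArg (fun s : S => coeff 0 (s : PowerSeries ℂ)) h0
      simp only [ZeroMemClass.coe_zero, map_zero] at this
      have h' : ((64 : S) : PowerSeries ℂ) = C (64 : ℂ) := ofNat_eq_C 64
      rw [h'] at this
      simp at this
    exact fun a b hab => mul_left_cancel₀ h64ne hab
  have hkey : ∀ x, 27 * DhS = (1 + 16 * US) * auxX (wS x) US VS TS - 4 * auxY (wS x) US TS :=
    fun x => key_identity h64 (wS x) US VS TS DhS hvuS hDS
  -- reduce modulo `2`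
  let I : Ideal S := Ideal.span {(2 : S)}
  let π := Ideal.Quotient.mk I
  have hπ2 : π 2 = 0 := Ideal.Quotient.eq_zero_iff_mem.mpr (Ideal.subset_span rfl)
  have hπ16 : π 16 = 0 := by
    have : (16 : S) = 2 * 8 := by norm_num
    rw [this, map_mul, hπ2, zero_mul]
  have hπ4 : π 4 = 0 := by
    have : (4 : S) = 2 * 2 := by norm_num
    rw [this, map_mul, hπ2, zero_mul]
  have hπX : ∀ x, π (auxX (wS x) US VS TS) = π (27 * DhS) := by
    intro x
    rw [hkey x, map_sub, map_mul, map_mul, map_add, map_mul, map_one, hπ16, hπ4]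
    simp
  have hπprod : π (∏ x, auxX (wS x) US VS TS) = π ((27 * DhS) ^ n) := by
    rw [map_prod, map_pow, Finset.prod_congr rfl (fun x _ => hπX x), Finset.prod_const,
      Finset.card_univ]
  obtain ⟨Z, hZ⟩ : ∃ Z : S, Z * 2 = ∏ x, auxX (wS x) US VS TS - (27 * DhS) ^ n := by
    have := (Ideal.Quotient.eq.mp hπprod)
    exact Ideal.mem_span_singleton'.mp this
  -- back to `PowerSeries ℂ`
  have hZ' : (Z : PowerSeries ℂ) * 2 = qExpansion (e : ℝ) P - (27 * De e) ^ n := by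
    have := congrArg (fun s : S => (s : PowerSeries ℂ)) hZ
    simp only [Subring.coe_mul, AddSubgroupClass.coe_sub, SubmonoidClass.coe_finsetProd,
      SubmonoidClass.coe_pow] at this
    rw [hPexp]
    have hcoe : ∀ x, ((auxX (wS x) US VS TS : S) : PowerSeries ℂ)
        = auxX (w x) (Ue e) (Ve e) (Te e) := fun x => map_auxX S.subtype (wS x) US VS TS
    rw [Finset.prod_congr rfl (fun x _ => hcoe x)] at this
    exact this
  -- coefficients
  have hPq : qExpansion (e : ℝ) P = stretch e (qExpansion (1 : ℝ) P) :=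
    qExpansion_of_one hP1 e he
  have hDn : (27 * De e) ^ n = C ((27 : ℂ) ^ n) * stretch e ((X * toC dedekindEtaUnit) ^ n) := by
    have h1 : IsPuiseux 1 ((Δ : ℍ → ℂ) ^ n) := (Fermat.Agent.S20.Puiseux.puiseuxSubring).pow_mem
      (isPuiseux_discriminant 1) n
    have h2 : qExpansion (e : ℝ) ((Δ : ℍ → ℂ) ^ n) = De e ^ n := by
      have := map_pow (qHom e he) (DS e) n
      exact this
    rw [mul_pow, ← h2, qExpansion_of_one h1 e he, qExp_pow nice_discriminant, qExpansion_discriminant,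
      ofNat_eq_C 27, ← map_pow]
  have hcoeff : ∀ m, coeff m (qExpansion (1 : ℝ) P)
      = 27 ^ n * coeff m ((X * toC dedekindEtaUnit : PowerSeries ℂ) ^ n)
        + 2 * coeff (e * m) (Z : PowerSeries ℂ) := by
    intro m
    have h2C : (Z : PowerSeries ℂ) * 2 = C (2 : ℂ) * (Z : PowerSeries ℂ) := by
      rw [ofNat_eq_C 2, mul_comm]
    have := congrArg (coeff (e * m)) hZ'
    rw [h2C, hPq, hDn, map_sub, coeff_C_mul, coeff_C_mul, coeff_stretch_mul e he,
      coeff_stretch_mul e he] at this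
    linear_combination -this
  -- Sturm
  have hle : CoeffLE (twoMul R) (8 * n / 12) (qExpansion (1 : ℝ) P) := by
    intro m hm
    have hmn : m < n := by omega
    rw [hcoeff m, coeff_X_mul_unit_pow, if_pos hmn, mul_zero, zero_add]
    exact mem_twoMul.mpr ⟨_, Z.2 (e * m), rfl⟩
  have hall := coeff_mem_of_sturm (twoMul R) (8 * n) hPmf hle n
  rw [hcoeff n, coeff_self_X_mul_unit_pow, mul_one] at hall
  obtain ⟨r, hr, hr2⟩ := mem_twoMul.mp hall
  -- parity
  obtain ⟨k, hk⟩ : ∃ k : ℕ, (27 : ℕ) ^ n = 2 * k + 1 := by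
    have : Odd ((27 : ℕ) ^ n) := Odd.pow (by decide)
    obtain ⟨k, hk⟩ := this
    exact ⟨k, hk⟩
  have hkC : (27 : ℂ) ^ n = 2 * (k : ℂ) + 1 := by exact_mod_cast hk
  apply h2
  have : (2 : ℂ)⁻¹ = r - coeff (e * n) (Z : PowerSeries ℂ) - (k : ℂ) := by
    rw [hkC] at hr2
    field_simp
    linear_combination -hr2
  rw [this]
  exact R.sub_mem (R.sub_mem hr (Z.2 (e * n))) (natCast_mem R k)

end Fermat.Agent.S16.U2Seven
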